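import Fermat.Agent.S40.TopDefs
import Fermat.Agent.S40.Cst.Defs

/-!
# S40 / S44, assembly of `LineCore` : definitions

* `CovCfg M p hpM A x y` : the Kummer-theoretic input of (COV) (= `LineCfg` without Hecke operators)
* `OrdCfg M p hpM A x y` : `CovCfg` + "for every `D` there is a prime `ℓ ∤ D` with
  `T_ℓ x = x ^ n` mod `p`-th powers, `n ≢ ℓ + 1 mod p`" (stable under raising the level)
* `IsRedOf M p A x xb` : `xb : FT A M` is the reduction of `x` on the branch `∞`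
* `OrdConcl M p A x y` : `TresFn` or `p ∣ ord_P x̄` for all places `P` of `FT A M`
* `upF`, `upT` : the inclusions `FB (p M) → FB (p M')`, `FT A M → FT A M'` (`M ∣ M'`)
* `CovCore`, `RegCore` : what the blocks (COV) and (REG) deliver
-/

set_option autoImplicit false
set_option synthInstance.maxHeartbeats 400000

open AlgebraicCurve ModularCurve

namespace Fermat.Agent.S40Lib

open Fermat.Agent.S18Lib Fermat.Agent.S24Lib Fermat.Agent.ESLib Fermat.Agent.S34Lib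
  Fermat.Agent.S33Lib Fermat.Agent.S36Lib

noncomputable section

section

variable (M p : ℕ) [NeZero M] [NeZero p] [hpF : Fact p.Prime] (hpM : ¬ p ∣ M)
variable (A : ValuationSubring Qb)

/-- the Kummer-theoretic input of (COV) -/
structure CovCfg (x y : FB (p * M)) : Prop where
  kx : IsKum (p * M) p x
  ky : IsKum (p * M) p y
  x1 : IsGU A (x : LaurentSeries Qb)
  x2 : IsGU A ((wq M p hpM x : FB (p * M)) : LaurentSeries Qb)
  nx1 : ∃ g : FB M, nrm (pi1 M p) x = g ^ p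
  nx2 : ∃ g : FB M, nrm (pi1 M p) (wq M p hpM x) = g ^ p
  y1 : GOne A (y : LaurentSeries Qb)
  y2 : GOne A ((wq M p hpM y : FB (p * M)) : LaurentSeries Qb)
  ny1 : ∃ g : FB M, nrm (pi1 M p) y = g ^ p
  ny2 : ∃ g : FB M, nrm (pi1 M p) (wq M p hpM y) = g ^ p
  yne : ¬ ∃ g : FB (p * M), y = g ^ p
  galy : ∀ ζ : Qb, IsPrimitiveRoot ζ p → ∀ σ ∈ A.inertiaSubgroupIn ℚ, ∀ j : ℕ, σ ζ = ζ ^ j →
    ∃ g : FB (p * M), gal (p * M) σ y = g ^ p * y ^ j
  galx : ∀ σ ∈ A.inertiaSubgroupIn ℚ, ∃ (j : ℕ) (g : FB (p * M)),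
    gal (p * M) σ x = g ^ p * x * y ^ j

/-- `CovCfg` + a non Eisenstein Hecke relation for `x` at primes `ℓ` prime to any given `D` -/
structure OrdCfg (x y : FB (p * M)) : Prop where
  cov : CovCfg M p hpM A x y
  ne : ∀ D : ℕ, D ≠ 0 → ∃ (ℓ : ℕ) (_ : NeZero ℓ) (n : ℤ) (g : FB (p * M)), ℓ.Prime ∧ ¬ ℓ ∣ D ∧
    ¬ (p : ℤ) ∣ n - ℓ - 1 ∧ g ≠ 0 ∧
    heckeMul ℓ (x : LaurentSeries Qb) = ((g ^ p * x ^ n : FB (p * M)) : LaurentSeries Qb)

/-- `xb` is the reduction of `x` on the branch `∞` -/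
def IsRedOf (x : FB (p * M)) (xb : FT A M) : Prop :=
  ∃ h : (x : LaurentSeries Qb) ∈ gRing A, (xb : LaurentSeries (kk A)) = gRed A ⟨_, h⟩

/-- `TresFn` or all the orders of `x̄` are divisible by `p` -/
def OrdConcl (x y : FB (p * M)) : Prop :=
  TresFn M p A x y ∨ ∀ xb : FT A M, IsRedOf M p A x xb →
    ∀ P : Place (kk A) (FT A M), (p : ℤ) ∣ P.ord xb

end

/-- the inclusion `FB (p M) → FB (p M')` -/
def upF (p : ℕ) {M M' : ℕ} [NeZero M] [NeZero M'] [NeZero p] (hd : M ∣ M') :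
    FB (p * M) →ₐ[Qb] FB (p * M') := aHom (Nat.mul_dvd_mul_left p hd)

theorem coe_upF (p : ℕ) {M M' : ℕ} [NeZero M] [NeZero M'] [NeZero p] (hd : M ∣ M')
    (x : FB (p * M)) : ((upF p hd x : FB (p * M')) : LaurentSeries Qb) = (x : LaurentSeries Qb) :=
  coe_aHom _ x

/-- the inclusion `FT A M → FT A M'` -/
def upT (A : ValuationSubring Qb) {M M' : ℕ} [NeZero M] [NeZero M'] (hd : M ∣ M') :
    FT A M →ₐ[kk A] FT A M' :=
  IntermediateField.inclusion (full_degeneracyC_le (kk A) hd)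

theorem coe_upT (A : ValuationSubring Qb) {M M' : ℕ} [NeZero M] [NeZero M'] (hd : M ∣ M')
    (x : FT A M) : ((upT A hd x : FT A M') : LaurentSeries (kk A)) = (x : LaurentSeries (kk A)) :=
  IntermediateField.coe_inclusion _ x

/-- both degrees of the level raising `M → M'` are prime to `p` -/
def GoodUp (A : ValuationSubring Qb) (p : ℕ) {M M' : ℕ} [NeZero M] [NeZero M'] [NeZero p]
    (hd : M ∣ M') : Prop :=
  (letI := algebraAlong (upF p hd)
   FiniteDimensional (FB (p * M)) (FB (p * M')) ∧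
    ¬ p ∣ Module.finrank (FB (p * M)) (FB (p * M'))) ∧
  ¬ p ∣ finrankAlong (kk A) (upT A hd)

/-- **(COV)** (`cov_main`): at a level `M` with `hbase` and a prime `r ≡ 11 mod 12`, `r ∣ M` -/
def CovCore : Prop :=
  ∀ (M p : ℕ) [NeZero M] [NeZero p] [Fact p.Prime] (hpM : ¬ p ∣ M), 5 ≤ p →
    ∀ (A : ValuationSubring Qb), A.LiesOverPrime p → (2 ∣ M ∨ 3 ∣ M) →
    ∀ r : ℕ, r.Prime → r % 12 = 11 → r ∣ M →
    ∀ H : FT A M, (H : LaurentSeries (kk A)) = (phiL (kk A) p)⁻¹ →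
    ∀ x y : FB (p * M), CovCfg M p hpM A x y → ∀ xb : FT A M, IsRedOf M p A x xb →
      TresFn M p A x y ∨ ∃ μ : ℤ, ∀ P : Place (kk A) (FT A M),
        (12 * p : ℤ) ∣ μ * ZZ3 A H P - 12 * P.ord xb

/-- **(REG)**: at any level `M` prime to `p ≥ 5` -/
def RegCore : Prop :=
  ∀ (M p : ℕ) [NeZero M] [NeZero p] [Fact p.Prime] (_ : ¬ p ∣ M), 5 ≤ p →
    ∀ (A : ValuationSubring Qb), A.LiesOverPrime p → ∀ (S : Finset ℕ) (a : ℕ → ℤ),
    (∀ q : ℕ, q.Prime → q ∣ p * M → q ∈ S) → HasKiller M p S a →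
    ∀ h : FT A M, h ≠ 0 → (∀ P : Place (kk A) (FT A M), (p : ℤ) ∣ P.ord h) →
    (∀ (ℓ : ℕ) [NeZero ℓ], ℓ.Prime → ℓ ∉ S → ∃ (n : ℕ) (g : FT A M), (p : ℤ) ∣ (n : ℤ) - a ℓ ∧
      heckeMul ℓ (h : LaurentSeries (kk A)) =
        (h : LaurentSeries (kk A)) ^ n * (g : LaurentSeries (kk A)) ^ p) →
    (∃ g : FT A M, h = g ^ p) ∨ Occurs M p S a

end

end Fermat.Agent.S40Lib
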