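import Fermat.Agent.S40.Cst.FENormGen

/-!
# S40, block (8) LEVEL CHANGE: abstract lemmas

* `LV_pow_descent` : `r`-th powers descend along an extension of degree prime to `r`.
* `LV_ord_descent` : `p ∣ ord_Q (φ h)` for all places `Q` of `F'` implies `p ∣ ord_P h` for all places
  `P` of `F`, if `p ∤ [F' : F]`.
-/

set_option autoImplicit false

open AlgebraicCurve

namespace Fermat.Agent.S40Lib

open Fermat.Agent.S18Lib Fermat.Agent.S24Lib Fermat.Agent.FFLib Fermat.Agent.S37Lib

theorem LV_pow_descent {F₁ F₂ : Type*} [Field F₁] [Field F₂] [Algebra F₁ F₂]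
    [FiniteDimensional F₁ F₂] {r : ℕ} (hr : r.Prime) (hrd : ¬ r ∣ Module.finrank F₁ F₂) (u : F₁)
    (z : F₂) (hz : z ^ r = algebraMap F₁ F₂ u) : ∃ w : F₁, w ^ r = u := by
  by_contra hno
  push Not at hno
  have hirr : Irreducible (Polynomial.X ^ r - Polynomial.C u : Polynomial F₁) :=
    X_pow_sub_C_irreducible_of_prime hr hno
  have hmin : minpoly F₁ z = Polynomial.X ^ r - Polynomial.C u := by
    symm
    apply minpoly.eq_of_irreducible_of_monic hirr
    · simp [hz]
    · exact Polynomial.monic_X_pow_sub_C u hr.ne_zero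
  have hint : IsIntegral F₁ z := IsIntegral.of_finite F₁ z
  have hdeg : Module.finrank F₁ (IntermediateField.adjoin F₁ {z}) = r := by
    rw [IntermediateField.adjoin.finrank hint, hmin, Polynomial.natDegree_X_pow_sub_C]
  apply hrd
  rw [← Module.finrank_mul_finrank F₁ (IntermediateField.adjoin F₁ {z}) F₂, hdeg]
  exact dvd_mul_right _ _

theorem LV_ord_descent {K F F' : Type*} [Field K] [Field F] [Field F'] [Algebra K F] [Algebra K F']
    [IsAlgClosed K] (hF : IsFF K F) (hF' : IsFF K F') (φ : F →ₐ[K] F') {p : ℕ} (hp : p.Prime)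
    (hd : ¬ p ∣ finrankAlong K φ) (h : F) (hh : h ≠ 0)
    (H : ∀ Q : Place K F', (p : ℤ) ∣ Q.ord (φ h)) (P : Place K F) : (p : ℤ) ∣ P.ord h := by
  have hφ := fe_isIntegral_along hF hF' φ
  have hfin := fe_finite_along hF hF' φ
  have hN := fe_norm_along_gen hF hF' φ hfin
  have hp0 : (p : ℤ) ≠ 0 := by exact_mod_cast hp.ne_zero
  set D : Divisor K F' := divOf K (φ h) with hD
  set D' : Divisor K F' := D.mapRange (fun x => x / (p : ℤ)) (by simp) with hD'
  have e1 : D = (p : ℤ) • D' := by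
    ext Q
    rw [Finsupp.smul_apply, hD', Finsupp.mapRange_apply, smul_eq_mul, hD, divOf_apply hF',
      Int.mul_ediv_cancel' (H Q)]
  have e2 : Divisor.pushforwardAlong φ hφ D P =
      P.ord (letI := algebraAlong φ; Algebra.norm F (φ h)) :=
    hN (φ h) ((_root_.map_ne_zero _).2 hh) D (fun Q => divOf_apply hF' _ Q) P
  have e3 : (letI := algebraAlong φ; Algebra.norm F (φ h)) = h ^ finrankAlong K φ := by
    letI := algebraAlong φ
    exact Algebra.norm_algebraMap h
  rw [e3, wa_ord_pow, e1, map_zsmul, Finsupp.smul_apply, smul_eq_mul] at e2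
  have h1 : (p : ℤ) ∣ (finrankAlong K φ : ℤ) * P.ord h := ⟨_, e2.symm⟩
  rcases (Nat.prime_iff_prime_int.1 hp).dvd_or_dvd h1 with h2 | h2
  · exact absurd (by exact_mod_cast h2) hd
  · exact h2

end Fermat.Agent.S40Lib
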