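import Fermat.Agent.S40.Lvl.Up
import Fermat.Agent.S40.Lvl.Abs
import Fermat.Agent.S34.LevelDescent

/-!
# S40 / S44, level change: the conclusions `TresFn`, `OrdConcl` descend along a good level raising
-/

set_option autoImplicit false
set_option synthInstance.maxHeartbeats 400000
set_option linter.unusedSectionVars false
set_option linter.unusedVariables false

open AlgebraicCurve ModularCurve

namespace Fermat.Agent.S40Lib

open Fermat.Agent.S18Lib Fermat.Agent.S24Lib Fermat.Agent.ESLib Fermat.Agent.S34Lib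
  Fermat.Agent.S33Lib Fermat.Agent.S36Lib Fermat.Agent.S35Lib Fermat.Agent.FFLib
  Fermat.Agent.S37Lib

noncomputable section

section UP

variable {M M' p : ℕ} [NeZero M] [NeZero M'] [NeZero p] [hpF : Fact p.Prime]
variable (hpM : ¬ p ∣ M) (hpM' : ¬ p ∣ M') (hd : M ∣ M')
variable {A : ValuationSubring Qb}

/-- (UP7) `TresFn` descends -/
theorem tresFn_down (hg : GoodUp A p hd) (x y : FB (p * M)) (hx : x ≠ 0) (hy : y ≠ 0)
    (h : TresFn M' p A (upF p hd x) (upF p hd y)) : TresFn M p A x y := by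
  obtain ⟨ζ, ϖ, u, n, hζ, hu0, hu, hσu, hϖ, hn, H⟩ := h
  refine ⟨ζ, ϖ, u, n, hζ, hu0, hu, hσu, hϖ, hn, fun σ hσ hσζ j hj => ?_⟩
  obtain ⟨g, hg'⟩ := H σ hσ hσζ j hj
  let _ := algebraAlong (upF p hd)
  have hX : gal (p * M) σ x ≠ 0 := (map_ne_zero_iff _ (gal (p * M) σ).injective).2 hx
  have hY : x * y ^ j ≠ 0 := mul_ne_zero hx (pow_ne_zero _ hy)
  have hcop : Nat.Coprime (Module.finrank (FB (p * M)) (FB (p * M'))) p :=
    ((Nat.Prime.coprime_iff_not_dvd hpF.out).2 hg.1.2).symm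
  obtain ⟨w, hw⟩ := LV_norm_descent (F₁ := FB (p * M)) (F₂ := FB (p * M')) hX hY hcop g (by
    change upF p hd (gal (p * M) σ x) = g ^ p * upF p hd (x * y ^ j)
    rw [← gal_upF hd, hg', map_mul, map_pow, mul_assoc])
  exact ⟨w, by rw [hw, mul_assoc]⟩

theorem UP_isRedOf_up (x : FB (p * M)) (xb : FT A M) (h : IsRedOf M p A x xb) :
    IsRedOf M' p A (upF p hd x) (upT A hd xb) := by
  obtain ⟨h1, h2⟩ := h
  have key : ∀ s : LaurentSeries Qb, s = (x : LaurentSeries Qb) →
      ∃ h : s ∈ gRing A, (xb : LaurentSeries (kk A)) = gRed A ⟨s, h⟩ := by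
    rintro s rfl
    exact ⟨h1, h2⟩
  obtain ⟨h3, h4⟩ := key _ (coe_upF p hd x)
  exact ⟨h3, (coe_upT A hd xb).trans h4⟩

/-- (UP8) the orders descend -/
theorem ordConcl_down (hg : GoodUp A p hd) (x y : FB (p * M)) (hx : x ≠ 0) (hy : y ≠ 0)
    (h : OrdConcl M' p A (upF p hd x) (upF p hd y)) : OrdConcl M p A x y := by
  rcases h with h | h
  · exact Or.inl (tresFn_down hd hg x y hx hy h)
  · refine Or.inr fun xb hxb P => ?_
    by_cases hxb0 : xb = 0
    · rw [hxb0, Place.ord_zero]; exact dvd_zero _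
    have := isAlgClosed_kk A
    have hred := UP_isRedOf_up hd x xb hxb
    exact LV_ord_descent (isFF_FT A M) (isFF_FT A M') (upT A hd) hpF.out hg.2 xb hxb0
      (fun Q => h _ hred Q) P

end UP

end

end Fermat.Agent.S40Lib
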