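import Fermat.Agent.S40.Lvl.Defs
import Fermat.Agent.S40.Cst.Degree

/-!
# S40 / S44 (LINE), batch (GU): `M → M * ℓ` is good if `p ∤ ℓ + 1` ; the choice of `r`
-/

set_option autoImplicit false
set_option synthInstance.maxHeartbeats 400000
set_option linter.unusedSectionVars false
set_option linter.unusedVariables false

open AlgebraicCurve ModularCurve

namespace Fermat.Agent.S40Lib

open Fermat.Agent.S18Lib Fermat.Agent.S24Lib Fermat.Agent.ESLib Fermat.Agent.S34Lib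
  Fermat.Agent.S33Lib Fermat.Agent.S36Lib Fermat.Agent.FFLib

noncomputable section

section GU

variable {M p : ℕ} [NeZero M] [NeZero p] [hpF : Fact p.Prime]

/-- (GU1) -/
theorem goodUp_prime (hpM : ¬ p ∣ M) (A : ValuationSubring Qb) (hA : A.LiesOverPrime p) (ℓ : ℕ)
    [NeZero ℓ] (hℓ : ℓ.Prime) (hℓp : ℓ ≠ p) (hℓM : ¬ ℓ ∣ M) (hpℓ : ¬ p ∣ ℓ + 1) :
    GoodUp A p (dvd_mul_right M ℓ) := by
  have hℓN : ¬ ℓ ∣ p * M := by
    intro h
    rcases (Nat.Prime.dvd_mul hℓ).mp h with h | h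
    · exact hℓp ((Nat.prime_dvd_prime_iff_eq hℓ hpF.out).mp h)
    · exact hℓM h
  have hidx : (CongruenceSubgroup.Gamma0 (p * (M * ℓ))).index
      = (CongruenceSubgroup.Gamma0 (p * M)).index * (ℓ + 1) := by
    have e : p * (M * ℓ) = (p * M) * ℓ := by ring
    rw [e]
    exact DG_idx (M := p * M) hℓ hℓN
  refine ⟨D2_finish (FB_le_of_dvd (Nat.mul_dvd_mul_left p (dvd_mul_right M ℓ))) (ℓ + 1) p
    (Nat.succ_pos _) hidx hpℓ, ?_⟩
  have h := finrank_aT (ℓ := ℓ) hpM A hA hℓ hℓp hℓM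
  show ¬ p ∣ (letI := algebraAlong (aT A M ℓ); Module.finrank (FT A M) (FT A (M * ℓ)))
  rw [h]
  exact hpℓ

/-- (GU2) Dirichlet -/
theorem exists_aux_prime (p : ℕ) (hp : p.Prime) (hp5 : 5 ≤ p) (D : ℕ) (hD : D ≠ 0) :
    ∃ r : ℕ, r.Prime ∧ r % 12 = 11 ∧ ¬ r ∣ D ∧ ¬ p ∣ r + 1 := by
  have hcop : Nat.Coprime 12 p := by
    have h2 : Nat.Coprime 2 p := (Nat.coprime_primes Nat.prime_two hp).2 (by omega)
    have h3 : Nat.Coprime 3 p := (Nat.coprime_primes Nat.prime_three hp).2 (by omega)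
    have : (12 : ℕ) = 2 * 2 * 3 := by norm_num
    rw [this]
    exact Nat.Coprime.mul_left (Nat.Coprime.mul_left h2 h2) h3
  -- `a ≡ 11 mod 12`, `a ≡ 1 mod p`
  obtain ⟨a, ha12, hap⟩ := Nat.chineseRemainder hcop 11 1
  have : NeZero (12 * p) := ⟨by have := hp.pos; positivity⟩
  have hunit : IsUnit ((a : ℕ) : ZMod (12 * p)) := by
    rw [ZMod.isUnit_iff_coprime]
    apply Nat.Coprime.mul_right
    · have h1 : Nat.gcd a 12 = Nat.gcd 11 12 := ha12.gcd_eq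
      rw [Nat.Coprime, h1]
      norm_num
    · have h1 : Nat.gcd a p = Nat.gcd 1 p := hap.gcd_eq
      rw [Nat.Coprime, h1, Nat.gcd_one_left]
  obtain ⟨r, hrD, hr, hra⟩ := Nat.forall_exists_prime_gt_and_eq_mod hunit D
  have hmod : r ≡ a [MOD 12 * p] := (ZMod.natCast_eq_natCast_iff r a (12 * p)).mp hra
  have h12 : r ≡ 11 [MOD 12] := (hmod.of_mul_right p).trans ha12
  have hp1 : r ≡ 1 [MOD p] := (hmod.of_mul_left 12).trans hap
  refine ⟨r, hr, h12, fun h => ?_, fun h => ?_⟩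
  · exact absurd (Nat.le_of_dvd (Nat.pos_of_ne_zero hD) h) (by omega)
  · have h2 : r + 1 ≡ 1 + 1 [MOD p] := hp1.add_right 1
    have h3 : p ∣ 1 + 1 := (Nat.modEq_zero_iff_dvd.mp
      (h2.symm.trans (Nat.modEq_zero_iff_dvd.mpr h)))
    have := Nat.le_of_dvd (by norm_num) h3
    omega

end GU

end

end Fermat.Agent.S40Lib
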