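import Fermat.Agent.S40.Lvl.Defs
import Fermat.Agent.S40.Cst.FormalRed
import Fermat.Agent.S40.TopNT
import Fermat.Agent.S35.NormHecke

/-!
# S40 / S44 (LINE), batch (HR): reduction of a Hecke relation mod `p`-th powers
-/

set_option autoImplicit false
set_option synthInstance.maxHeartbeats 400000
set_option linter.unusedSectionVars false
set_option linter.unusedVariables false

open AlgebraicCurve ModularCurve

namespace Fermat.Agent.S40Lib

open Fermat.Agent.S18Lib Fermat.Agent.S24Lib Fermat.Agent.ESLib Fermat.Agent.S34Lib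
  Fermat.Agent.S33Lib Fermat.Agent.S36Lib Fermat.Agent.S35Lib Fermat.Agent.FFLib

noncomputable section

section HR

variable {M p : ℕ} [NeZero M] [NeZero p] [hpF : Fact p.Prime] {hpM : ¬ p ∣ M}
variable {A : ValuationSubring Qb}

/-- (HR1) `R.O` is integrally closed (`Φ = FT × FT` is reduced) -/
theorem HR_mem_of_pow_mem (R : RedG A (IsLocalRing.residue A) (FB (p * M)) (FT A M × FT A M))
    (g : FB (p * M)) (n : ℕ) (hn : 0 < n) (h : g ^ n ∈ R.O) : g ∈ R.O := by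
  by_cases hg : g = 0
  · rw [hg]; exact R.O.zero_mem
  obtain ⟨c, hc, y, hy, hgy⟩ := R.exists_scale g hg
  by_cases hcA : c ∈ A
  · rw [hgy]
    exact R.O.mul_mem ((R.algebraMap_mem_iff c).2 hcA) y.2
  exfalso
  have hci : c⁻¹ ∈ A := (A.mem_or_inv_mem c).resolve_left hcA
  set a : A := ⟨c⁻¹, hci⟩ with ha
  have hres : IsLocalRing.residue A a = 0 := by
    rw [IsLocalRing.residue_eq_zero_iff, IsLocalRing.mem_maximalIdeal, mem_nonunits_iff]
    rintro ⟨u, hu⟩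
    apply hcA
    have h1 : ((u⁻¹ : Aˣ) : A) * a = 1 := by rw [← hu]; exact u.inv_mul
    have h2 : (((u⁻¹ : Aˣ) : A) : Qb) * c⁻¹ = 1 := by
      have := congrArg (fun t : A => (t : Qb)) h1
      simpa [ha] using this
    have h3 : (((u⁻¹ : Aˣ) : A) : Qb) = c := by
      field_simp at h2
      exact h2
    rw [← h3]
    exact ((u⁻¹ : Aˣ) : A).2
  have hyn : y ^ n = (R.const a) ^ n * ⟨g ^ n, h⟩ := by
    apply Subtype.ext
    have e1 : algebraMap Qb (FB (p * M)) c⁻¹ * algebraMap Qb (FB (p * M)) c = 1 := by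
      rw [← map_mul, inv_mul_cancel₀ hc, map_one]
    push_cast
    rw [RedG.coe_const, hgy, mul_pow, ← mul_assoc, ← mul_pow]
    change _ = (algebraMap Qb (FB (p * M)) c⁻¹ * algebraMap Qb (FB (p * M)) c) ^ n * _
    rw [e1, one_pow, one_mul]
  have h0 : (R.red y) ^ n = 0 := by
    rw [← map_pow, hyn, map_mul, map_pow, RedG.red_const, hres, map_zero, zero_pow hn.ne', zero_mul]
  exact hy (pow_eq_zero_iff hn.ne' |>.1 h0)

/-- (HR2) existence and uniqueness of the reduction -/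
theorem exists_isRedOf (hA : A.LiesOverPrime p) (x : FB (p * M))
    (x1 : (x : LaurentSeries Qb) ∈ gRing A)
    (x2 : ((wq M p hpM x : FB (p * M)) : LaurentSeries Qb) ∈ gRing A) :
    ∃ xb : FT A M, IsRedOf M p A x xb := by
  obtain ⟨R, hR⟩ := exists_red2 M p hpM A hA
  have hx : x ∈ R.O := (hR.mem_iff x).2 ⟨x1, x2⟩
  exact ⟨(R.red ⟨x, hx⟩).1, x1, hR.red_fst ⟨x, hx⟩ x1⟩

/-- (HR3) -/
theorem hecke_red (hA : A.LiesOverPrime p) (x : FB (p * M))
    (x1 : IsGU A (x : LaurentSeries Qb))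
    (x2 : IsGU A ((wq M p hpM x : FB (p * M)) : LaurentSeries Qb))
    (xb : FT A M) (hxb : IsRedOf M p A x xb)
    (ℓ : ℕ) [NeZero ℓ] (hℓ : ℓ.Prime) (hℓN : ¬ ℓ ∣ p * M) (n : ℤ) (g : FB (p * M)) (hg : g ≠ 0)
    (hrel : heckeMul ℓ (x : LaurentSeries Qb) =
      ((g ^ p * x ^ n : FB (p * M)) : LaurentSeries Qb)) :
    ∃ (a : ℕ) (gb : FT A M), (p : ℤ) ∣ (a : ℤ) - n ∧
      heckeMul ℓ (xb : LaurentSeries (kk A)) =
        (xb : LaurentSeries (kk A)) ^ a * (gb : LaurentSeries (kk A)) ^ p := by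
  have hp : p.Prime := hpF.out
  have hℓp : ℓ ≠ p := by
    rintro rfl
    exact hℓN (dvd_mul_right _ _)
  obtain ⟨R, hR⟩ := exists_red2 M p hpM A hA
  have hx : x ∈ R.O := (hR.mem_iff x).2 ⟨x1.1, x2.1⟩
  set f' : FB (p * M) := g ^ p * x ^ n with hf'
  obtain ⟨k1, hk1⟩ := heckeMul_gRed A hp hA hℓ hℓp (x : LaurentSeries Qb) x1.1
  obtain ⟨k2, hk2⟩ := heckeMul_gRed A hp hA hℓ hℓp
    ((wq M p hpM x : FB (p * M)) : LaurentSeries Qb) x2.1
  have hw := wq_heckeMul M p hpM hℓ hℓN x f' hrel.symm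
  have hf1 : (f' : LaurentSeries Qb) ∈ gRing A := by rw [← hrel]; exact k1
  have hf2 : ((wq M p hpM f' : FB (p * M)) : LaurentSeries Qb) ∈ gRing A := by rw [hw]; exact k2
  have hfO : f' ∈ R.O := (hR.mem_iff f').2 ⟨hf1, hf2⟩
  -- `x` is a unit of `R.O`
  have hx1 : (R.red ⟨x, hx⟩).1 ≠ 0 := by
    intro h0
    apply x1.2
    rw [← hR.red_fst ⟨x, hx⟩ x1.1, h0]
    rfl
  have hx2 : (R.red ⟨x, hx⟩).2 ≠ 0 := by
    intro h0
    apply x2.2
    rw [← hR.red_snd ⟨x, hx⟩ x2.1, h0]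
    rfl
  have hxu : IsUnit (R.red ⟨x, hx⟩) := by
    rw [Prod.isUnit_iff]
    exact ⟨isUnit_iff_ne_zero.2 hx1, isUnit_iff_ne_zero.2 hx2⟩
  obtain ⟨u, hu⟩ := R.isUnit_of_red ⟨x, hx⟩ hxu
  set xi : R.O := ((u⁻¹ : (R.O)ˣ) : R.O) with hxi
  have hxxi : (⟨x, hx⟩ : R.O) * xi = 1 := by rw [← hu, hxi]; exact u.mul_inv
  have hx0 : x ≠ 0 := by
    rintro rfl
    apply hx1
    have : (⟨0, hx⟩ : R.O) = 0 := rfl
    rw [this, map_zero]
    rfl
  have hxic : ((xi : R.O) : FB (p * M)) = x⁻¹ := by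
    have := congrArg (fun t : R.O => (t : FB (p * M))) hxxi
    simp only [Subring.coe_mul, Subring.coe_one] at this
    exact eq_inv_of_mul_eq_one_right this
  have hp0 : (p : ℤ) ≠ 0 := by exact_mod_cast hp.ne_zero
  have hmod0 : 0 ≤ n % (p : ℤ) := Int.emod_nonneg n hp0
  set a : ℕ := (n % (p : ℤ)).toNat with ha
  have haz : (a : ℤ) = n % (p : ℤ) := Int.toNat_of_nonneg hmod0
  have hn : n = (p : ℤ) * (n / (p : ℤ)) + a := by rw [haz]; exact (Int.mul_ediv_add_emod n p).symm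
  set g' : FB (p * M) := g * x ^ (n / (p : ℤ)) with hg'
  have hg'p : g' ^ p = f' * (x⁻¹) ^ a := by
    have e1 : x ^ n = (x ^ (n / (p : ℤ))) ^ p * x ^ a := by
      conv_lhs => rw [hn]
      rw [zpow_add₀ hx0, zpow_natCast, mul_comm (p : ℤ), zpow_mul, zpow_natCast]
    rw [hg', hf', e1, mul_pow, inv_pow]
    have : x ^ a ≠ 0 := pow_ne_zero _ hx0
    field_simp
  have hg'O : g' ∈ R.O := by
    apply HR_mem_of_pow_mem R g' p hp.pos
    rw [hg'p, ← hxic]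
    exact R.O.mul_mem hfO (R.O.pow_mem xi.2 a)
  have hfac : (⟨f', hfO⟩ : R.O) = ⟨x, hx⟩ ^ a * ⟨g', hg'O⟩ ^ p := by
    apply Subtype.ext
    push_cast
    rw [hg'p, inv_pow]
    have : x ^ a ≠ 0 := pow_ne_zero _ hx0
    field_simp
  have hred := congrArg (fun t => (((R.red t).1 : FT A M) : LaurentSeries (kk A))) hfac
  simp only [map_mul, map_pow, Prod.fst_mul, Prod.pow_fst] at hred
  obtain ⟨h1, hxb1⟩ := hxb
  have hxbe : (((R.red ⟨x, hx⟩).1 : FT A M) : LaurentSeries (kk A)) = (xb : LaurentSeries (kk A)) := by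
    rw [hR.red_fst ⟨x, hx⟩ x1.1, hxb1]
  have hfe : (((R.red ⟨f', hfO⟩).1 : FT A M) : LaurentSeries (kk A))
      = heckeMul ℓ (xb : LaurentSeries (kk A)) := by
    rw [hR.red_fst ⟨f', hfO⟩ hf1, hxb1, ← hk1]
    congr 1
    exact Subtype.ext hrel.symm
  refine ⟨a, (R.red ⟨g', hg'O⟩).1, ?_, ?_⟩
  · rw [haz]
    exact ⟨-(n / (p : ℤ)), by have := Int.mul_ediv_add_emod n p; linarith⟩
  · rw [← hfe, hred]
    push_cast
    rw [hxbe]

end HR

end

end Fermat.Agent.S40Lib
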