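import Fermat.Agent.S40.Lvl.Defs
import Fermat.Agent.S40.Reg.Main
import Fermat.Agent.S33.YSep

/-!
# S40 / S44 : `RegCore` from `reg_main`
-/

set_option autoImplicit false
set_option synthInstance.maxHeartbeats 400000

open AlgebraicCurve ModularCurve

namespace Fermat.Agent.S40Lib

open Fermat.Agent.S18Lib Fermat.Agent.S24Lib Fermat.Agent.ESLib Fermat.Agent.S34Lib
  Fermat.Agent.S33Lib Fermat.Agent.S36Lib

theorem regCore : RegCore := by
  intro M p _ _ _ hpM hp5 A hA S a hS _ h _ hord hecke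
  by_cases hθ : Fermat.Agent.FFLib.thetaFun (h : LaurentSeries (kk A)) = 0
  · left
    apply exists_pow_eq_of_thetaD_eq_zero A M p hA h
    ext n
    have := congrArg (fun f : LaurentSeries (kk A) => f.coeff n) hθ
    rw [Fermat.Agent.S18Lib.thetaD_coeff]
    exact this
  · right
    refine reg_main M p hpM A hA hp5 S a hS h hθ hord ?_
    intro ℓ _ hℓ hℓS
    obtain ⟨n, g, hn, hrel⟩ := hecke ℓ hℓ hℓS
    refine ⟨1, (g : LaurentSeries (kk A)), (n : ℤ), hn, ?_⟩
    rw [hrel, map_one, one_mul, zpow_natCast, mul_comm]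

end Fermat.Agent.S40Lib
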