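import Fermat.Agent.S40.Lvl.OrdCore
import Fermat.Agent.S40.Lvl.RegAdapter

/-!
# S40 / S44 : `LineCore` from `CovCore` alone
-/

namespace Fermat.Agent.S40Lib

/-- `LineCore` follows from (COV) -/
theorem lineCore_of_cov (HC : CovCore) : LineCore := lineCore_of HC regCore

end Fermat.Agent.S40Lib
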