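import Fermat.Agent.S40.Lvl.Up
import Fermat.Agent.S40.Lvl.Abs
import Fermat.Agent.S34.LevelDescent

/-!
# S40 / S44, level change: the configurations `CovCfg`, `OrdCfg` are stable under raising the level
-/

set_option autoImplicit false
set_option synthInstance.maxHeartbeats 400000
set_option linter.unusedSectionVars false
set_option linter.unusedVariables false

open AlgebraicCurve ModularCurve

namespace Fermat.Agent.S40Lib

open Fermat.Agent.S18Lib Fermat.Agent.S24Lib Fermat.Agent.ESLib Fermat.Agent.S34Lib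
  Fermat.Agent.S33Lib Fermat.Agent.S36Lib Fermat.Agent.S35Lib Fermat.Agent.FFLib
  Fermat.Agent.S37Lib

noncomputable section

section UP

variable {M M' p : ℕ} [NeZero M] [NeZero M'] [NeZero p] [hpF : Fact p.Prime]
variable (hpM : ¬ p ∣ M) (hpM' : ¬ p ∣ M') (hd : M ∣ M')
variable {A : ValuationSubring Qb}

/-- (UP5) -/
theorem covCfg_up (hg : GoodUp A p hd) (x y : FB (p * M)) (h : CovCfg M p hpM A x y) :
    CovCfg M' p hpM' A (upF p hd x) (upF p hd y) := by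
  refine ⟨isKum_upF hd x h.kx, isKum_upF hd y h.ky, ?_, ?_, ?_, ?_, ?_, ?_, ?_, ?_, ?_, ?_, ?_⟩
  · rw [coe_upF]; exact h.x1
  · rw [wq_upF hpM hpM' hd, coe_upF]; exact h.x2
  · obtain ⟨g, hg'⟩ := h.nx1
    exact ⟨aHom hd g, by rw [nrm_upF hpM hpM' hd, hg', map_pow]⟩
  · obtain ⟨g, hg'⟩ := h.nx2
    exact ⟨aHom hd g, by rw [wq_upF hpM hpM' hd, nrm_upF hpM hpM' hd, hg', map_pow]⟩
  · rw [coe_upF]; exact h.y1
  · rw [wq_upF hpM hpM' hd, coe_upF]; exact h.y2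
  · obtain ⟨g, hg'⟩ := h.ny1
    exact ⟨aHom hd g, by rw [nrm_upF hpM hpM' hd, hg', map_pow]⟩
  · obtain ⟨g, hg'⟩ := h.ny2
    exact ⟨aHom hd g, by rw [wq_upF hpM hpM' hd, nrm_upF hpM hpM' hd, hg', map_pow]⟩
  · rintro ⟨g, hg'⟩
    let _ := algebraAlong (upF p hd)
    have : FiniteDimensional (FB (p * M)) (FB (p * M')) := hg.1.1
    obtain ⟨w, hw⟩ := LV_pow_descent (F₁ := FB (p * M)) (F₂ := FB (p * M')) hpF.out hg.1.2 y g
      hg'.symm
    exact h.yne ⟨w, hw.symm⟩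
  · intro ζ hζ σ hσ j hj
    obtain ⟨g, hg'⟩ := h.galy ζ hζ σ hσ j hj
    exact ⟨upF p hd g, by rw [gal_upF hd, hg', map_mul, map_pow, map_pow]⟩
  · intro σ hσ
    obtain ⟨j, g, hg'⟩ := h.galx σ hσ
    exact ⟨j, upF p hd g, by rw [gal_upF hd, hg', map_mul, map_mul, map_pow, map_pow]⟩

/-- (UP6) -/
theorem ordCfg_up (hg : GoodUp A p hd) (x y : FB (p * M)) (h : OrdCfg M p hpM A x y) :
    OrdCfg M' p hpM' A (upF p hd x) (upF p hd y) := by
  refine ⟨covCfg_up hpM hpM' hd hg x y h.cov, fun D hD => ?_⟩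
  obtain ⟨ℓ, hℓ0, n, g, hℓ, hℓD, hn, hg0, hrel⟩ := h.ne D hD
  refine ⟨ℓ, hℓ0, n, upF p hd g, hℓ, hℓD, hn, (_root_.map_ne_zero _).2 hg0, ?_⟩
  rw [coe_upF, hrel, ← map_pow, ← map_zpow₀, ← map_mul, coe_upF]

end UP

end

end Fermat.Agent.S40Lib
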