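import Fermat.Agent.S40.Lvl.HeckeRed
import Fermat.Agent.S40.Lvl.UpCfg
import Fermat.Agent.S40.Lvl.Down
import Fermat.Agent.S40.Lvl.Good
import Fermat.Agent.S40.Cst.Main
import Fermat.Agent.S40.TopNT
import Fermat.Agent.S36.Mod.EtaH

/-!
# S40 / S44 : assembly of `LineCore` from `CovCore` and `RegCore`
-/

set_option autoImplicit false
set_option synthInstance.maxHeartbeats 400000
set_option linter.unusedSectionVars false

open AlgebraicCurve ModularCurve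

namespace Fermat.Agent.S40Lib

open Fermat.Agent.S18Lib Fermat.Agent.S24Lib Fermat.Agent.ESLib Fermat.Agent.S34Lib
  Fermat.Agent.S33Lib Fermat.Agent.S36Lib Fermat.Agent.S35Lib Fermat.Agent.FFLib
  Fermat.Agent.S37Lib

noncomputable section

section OC

variable {M p : ℕ} [NeZero M] [NeZero p] [hpF : Fact p.Prime] (hpM : ¬ p ∣ M)
variable (A : ValuationSubring Qb)

theorem IsRedOf.unique {x : FB (p * M)} {xb xb' : FT A M} (h : IsRedOf M p A x xb)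
    (h' : IsRedOf M p A x xb') : xb = xb' := by
  obtain ⟨h1, e1⟩ := h
  obtain ⟨h2, e2⟩ := h'
  exact Subtype.ext (e1.trans e2.symm)

theorem IsRedOf.ne_zero {x : FB (p * M)} {xb : FT A M} (h : IsRedOf M p A x xb)
    (hx : IsGU A (x : LaurentSeries Qb)) : xb ≠ 0 := by
  obtain ⟨h1, e1⟩ := h
  rintro rfl
  exact hx.2 e1.symm

/-- (OC1) the base case: (COV) + (CST) -/
theorem ordConcl_base (HC : CovCore) (hp5 : 5 ≤ p) (hA : A.LiesOverPrime p)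
    (hbase : 2 ∣ M ∨ 3 ∣ M) (r : ℕ) (hr : r.Prime) (hr12 : r % 12 = 11) (hrM : r ∣ M)
    (x y : FB (p * M)) (h : OrdCfg M p hpM A x y) : OrdConcl M p A x y := by
  obtain ⟨H, hH⟩ := exists_HT A M p hA
  obtain ⟨xb, hxb⟩ := exists_isRedOf (hpM := hpM) hA x h.cov.x1.1 h.cov.x2.1
  rcases HC M p hpM hp5 A hA hbase r hr hr12 hrM H hH x y h.cov xb hxb with ht | ⟨μ, hμ⟩
  · exact Or.inl ht
  · right
    intro xb' hxb'
    obtain rfl := IsRedOf.unique A hxb hxb'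
    obtain ⟨ℓ, _, n, g, hℓ, hℓN, hn, hg, hrel⟩ := h.ne (p * M) (NeZero.ne _)
    obtain ⟨a, gb, ha, hred⟩ := hecke_red hA x h.cov.x1 h.cov.x2 xb hxb ℓ hℓ hℓN n g hg hrel
    have hℓp : ℓ ≠ p := by
      rintro rfl
      exact hℓN (dvd_mul_right _ _)
    have hℓM : ¬ ℓ ∣ M := fun hd => hℓN (hd.mul_left p)
    refine cst_main hpM A hA hℓ hℓp hℓM H hH xb gb (IsRedOf.ne_zero A hxb h.cov.x1) 1 a ?_ μ hμ ?_
    · rw [hred, map_one, one_mul]
    · intro hd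
      apply hn
      have := dvd_sub hd ha
      push_cast at this
      have e : (a : ℤ) - (ℓ + 1) - (a - n) = n - ℓ - 1 := by ring
      rwa [e] at this

/-- (OC2) one step -/
theorem ordConcl_step (hA : A.LiesOverPrime p) (ℓ : ℕ) [NeZero ℓ] (hℓ : ℓ.Prime) (hℓp : ℓ ≠ p)
    (hℓM : ¬ ℓ ∣ M) (hpℓ : ¬ p ∣ ℓ + 1) (hpM' : ¬ p ∣ M * ℓ)
    (H : ∀ x y : FB (p * (M * ℓ)), OrdCfg (M * ℓ) p hpM' A x y → OrdConcl (M * ℓ) p A x y)
    (x y : FB (p * M)) (h : OrdCfg M p hpM A x y) : OrdConcl M p A x y := by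
  have hg := goodUp_prime hpM A hA ℓ hℓ hℓp hℓM hpℓ
  exact ordConcl_down (dvd_mul_right M ℓ) hg x y h.cov.kx.1 h.cov.ky.1
    (H _ _ (ordCfg_up hpM hpM' (dvd_mul_right M ℓ) hg x y h))

/-- (OC3) all levels -/
theorem ordConcl_all (HC : CovCore) (hp5 : 5 ≤ p) (hA : A.LiesOverPrime p)
    (x y : FB (p * M)) (h : OrdCfg M p hpM A x y) : OrdConcl M p A x y := by
  have hp : p.Prime := hpF.out
  obtain ⟨r, hr, hr12, hrD, hpr⟩ := exists_aux_prime p hp hp5 (p * (M * 2))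
    (Nat.mul_ne_zero hp.ne_zero (Nat.mul_ne_zero (NeZero.ne M) two_ne_zero))
  haveI : NeZero r := ⟨hr.ne_zero⟩
  have hrp : r ≠ p := by
    rintro rfl
    exact hrD (dvd_mul_right _ _)
  have hrM2 : ¬ r ∣ M * 2 := fun hd => hrD (hd.mul_left p)
  have hrM : ¬ r ∣ M := fun hd => hrM2 (hd.mul_right 2)
  have hnd : ∀ {K ℓ : ℕ}, ¬ p ∣ K → ℓ.Prime → ℓ ≠ p → ¬ p ∣ K * ℓ := by
    intro K ℓ hK hℓ hℓp hd
    rcases (Nat.Prime.dvd_mul hp).1 hd with h1 | h1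
    · exact hK h1
    · exact hℓp ((Nat.prime_dvd_prime_iff_eq hp hℓ).1 h1).symm
  by_cases h2 : 2 ∣ M
  · refine ordConcl_step hpM A hA r hr hrp hrM hpr (hnd hpM hr hrp) (fun x' y' h' => ?_) x y h
    exact ordConcl_base _ A HC hp5 hA (Or.inl (h2.mul_right r)) r hr hr12 (dvd_mul_left r M) x' y' h'
  · have h2p : (2 : ℕ) ≠ p := by omega
    have hp3 : ¬ p ∣ 2 + 1 := fun hd => by
      have := Nat.le_of_dvd (by norm_num) hd
      omega
    have hpM2 : ¬ p ∣ M * 2 := hnd hpM Nat.prime_two h2p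
    refine ordConcl_step hpM A hA 2 Nat.prime_two h2p h2 hp3 hpM2 (fun x' y' h' => ?_) x y h
    refine ordConcl_step hpM2 A hA r hr hrp hrM2 hpr (hnd hpM2 hr hrp) (fun x'' y'' h'' => ?_)
      x' y' h'
    exact ordConcl_base _ A HC hp5 hA (Or.inl ((dvd_mul_left 2 M).mul_right r)) r hr hr12
      (dvd_mul_left r (M * 2)) x'' y'' h''

/-- (OC4) -/
theorem ordCfg_of_lineCfg (S : Finset ℕ) (a : ℕ → ℤ) (hNE : NonEis p a) (x y : FB (p * M))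
    (h : LineCfg M p hpM A S a x y) : OrdCfg M p hpM A x y := by
  refine ⟨⟨h.ex.kum, h.ey.kum, h.x1, h.x2, h.ex.nm1, h.ex.nm2, h.y1, h.y2, h.ey.nm1, h.ey.nm2,
    h.yne, h.galy, h.galx⟩, ?_⟩
  intro D hD
  set E : ℕ := ∏ s ∈ S.filter (fun s => s ≠ 0), s with hE
  have hE0 : E ≠ 0 := Finset.prod_ne_zero_iff.2 fun s hs => (Finset.mem_filter.1 hs).2
  obtain ⟨ℓ, hℓ, hℓD, hℓa⟩ := hNE (D * E) (Nat.mul_ne_zero hD hE0)
  haveI : NeZero ℓ := ⟨hℓ.ne_zero⟩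
  have hℓS : ℓ ∉ S := by
    intro hS
    apply hℓD
    exact (Finset.dvd_prod_of_mem _ (Finset.mem_filter.2 ⟨hS, hℓ.ne_zero⟩)).mul_left D
  obtain ⟨g, hg, hrel⟩ := h.ex.hecke ℓ hℓ hℓS
  exact ⟨ℓ, inferInstance, a ℓ, g, hℓ, fun hd => hℓD (hd.mul_right E), hℓa, hg, hrel⟩

end OC

/-- **`LineCore`** -/
theorem lineCore_of (HC : CovCore) (HR : RegCore) : LineCore := by
  intro M p _ _ _ hpM hp5 A hA S a hS hNE hK x y h
  have hO := ordCfg_of_lineCfg hpM A S a hNE x y h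
  rcases ordConcl_all hpM A HC hp5 hA x y hO with ht | hord
  · exact Or.inl ht
  obtain ⟨xb, hxb⟩ := exists_isRedOf (hpM := hpM) hA x h.x1.1 h.x2.1
  have hreg := HR M p hpM hp5 A hA S a hS hK xb (IsRedOf.ne_zero A hxb h.x1) (hord xb hxb) (by
    intro ℓ _ hℓ hℓS
    obtain ⟨g, hg, hrel⟩ := h.ex.hecke ℓ hℓ hℓS
    have hℓN : ¬ ℓ ∣ p * M := fun hd => hℓS (hS ℓ hℓ hd)
    exact hecke_red hA x h.x1 h.x2 xb hxb ℓ hℓ hℓN (a ℓ) g hg hrel)
  rcases hreg with ⟨g, hg⟩ | hocc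
  · exfalso
    apply h.xT
    refine inT1_of_gRed_pow hA x h.x1 h.x2 h.ex.nm1 ⟨g, ?_⟩
    obtain ⟨h1, e1⟩ := hxb
    rw [← e1, hg]
    rfl
  · exact Or.inr hocc

end

end Fermat.Agent.S40Lib
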