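import Fermat.Agent.S40.Lvl.Defs
import Fermat.Agent.S35.LevelDescent

/-!
# S40 / S44 (LINE), batch (UPa): raising the level `M → M'`
-/

set_option autoImplicit false
set_option synthInstance.maxHeartbeats 400000
set_option linter.unusedSectionVars false
set_option linter.unusedVariables false

open AlgebraicCurve ModularCurve

namespace Fermat.Agent.S40Lib

open Fermat.Agent.S18Lib Fermat.Agent.S24Lib Fermat.Agent.ESLib Fermat.Agent.S34Lib
  Fermat.Agent.S33Lib Fermat.Agent.S36Lib Fermat.Agent.S35Lib Fermat.Agent.FFLib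

noncomputable section

section UP

variable {M M' p : ℕ} [NeZero M] [NeZero M'] [NeZero p] [hpF : Fact p.Prime]
variable (hpM : ¬ p ∣ M) (hpM' : ¬ p ∣ M') (hd : M ∣ M')
variable {A : ValuationSubring Qb}

theorem UP_upF_eq (f : FB (p * M)) :
    upF p hd f = ⟨(f : LaurentSeries Qb), FB_le_of_dvd (Nat.mul_dvd_mul_left p hd) f.2⟩ :=
  Subtype.ext (coe_upF p hd f)

/-- (UP1) -/
theorem wq_upF (f : FB (p * M)) :
    wq M' p hpM' (upF p hd f) = upF p hd (wq M p hpM f) := by
  obtain ⟨r, hr⟩ := id hd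
  have hr' : M' = r * M := by rw [hr, mul_comm]
  subst hr'
  have : NeZero r := ⟨fun h => NeZero.ne (r * M) (by rw [h, zero_mul])⟩
  apply Subtype.ext
  rw [coe_upF, UP_upF_eq, wq_compat M p hpM r hpM' f]

include hpM hpM' in
/-- (UP2) -/
theorem nrm_upF (f : FB (p * M)) :
    nrm (pi1 M' p) (upF p hd f) = aHom hd (nrm (pi1 M p) f) := by
  obtain ⟨r, hr⟩ := id hd
  have hr' : M' = r * M := by rw [hr, mul_comm]
  subst hr'
  have : NeZero r := ⟨fun h => NeZero.ne (r * M) (by rw [h, zero_mul])⟩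
  apply Subtype.ext
  rw [coe_aHom, UP_upF_eq]
  exact LV35_nm M p hpM r hpM' f _

/-- (UP3) -/
theorem gal_upF (σ : GQ) (f : FB (p * M)) :
    gal (p * M') σ (upF p hd f) = upF p hd (gal (p * M) σ f) := by
  apply Subtype.ext
  rw [coe_upF, coe_gal, coe_gal, coe_upF]

/-- (UP4) -/
theorem isKum_upF (f : FB (p * M)) (hf : IsKum (p * M) p f) : IsKum (p * M') p (upF p hd f) := by
  have hle : FB (p * M) ≤ FB (p * M') := FB_le_of_dvd (Nat.mul_dvd_mul_left p hd)
  let _ := (IntermediateField.inclusion hle).toRingHom.toAlgebra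
  have : IsScalarTower Qb (FB (p * M)) (FB (p * M')) :=
    IsScalarTower.of_algebraMap_eq fun a => ((IntermediateField.inclusion hle).commutes a).symm
  have : Module.Finite (FB (p * M)) (FB (p * M')) :=
    Fermat.Agent.S37Lib.fe_finite (isFF_FB (p * M)) (isFF_FB (p * M'))
  have : Algebra.IsIntegral (FB (p * M)) (FB (p * M')) := Algebra.IsIntegral.of_finite _ _
  refine ⟨(map_ne_zero_iff _ (upF p hd).toRingHom.injective).2 hf.1, fun P' => ?_⟩
  exact LV_dvd_ord (K := Qb) ((p : ℕ) : ℤ) f hf.2 P'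

end UP

end

end Fermat.Agent.S40Lib
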